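import Mathlib

/-!
# Counting for the additive divisor problem

`d n = 2 #{a ∣ n | a ^ 2 < n} + [n is a square]`, and the number of `n ≤ N` with `a ∣ n`,
`b ∣ n + h`, `a ^ 2 < n`, `b ^ 2 < n + h`.
-/

set_option autoImplicit false

noncomputable section

namespace FA.AdditiveDivisor

open Finset

/-- The divisors `a ≤ X` of `n` with `a ^ 2 < n`. -/
def lowDiv (X n : ℕ) : ℕ := ((Icc 1 X).filter fun a => a ∣ n ∧ a * a < n).card

/-- The indicator of the squares. -/
def sqInd (n : ℕ) : ℕ := if Nat.sqrt n * Nat.sqrt n = n then 1 else 0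

theorem card_divisors_eq {X n : ℕ} (hn : 0 < n) (hX : Nat.sqrt n ≤ X) :
    n.divisors.card = 2 * lowDiv X n + sqInd n := by
  have hlow : (Icc 1 X).filter (fun a => a ∣ n ∧ a * a < n) =
      n.divisors.filter fun a => a * a < n := by
    ext a
    simp only [mem_filter, mem_Icc, Nat.mem_divisors]
    refine ⟨fun h => ⟨⟨h.2.1, hn.ne'⟩, h.2.2⟩, fun h => ⟨⟨Nat.pos_of_dvd_of_pos h.1.1 hn, ?_⟩,
      h.1.1, h.2⟩⟩
    exact (Nat.le_sqrt.2 h.2.le).trans hX
  have hhigh : (n.divisors.filter fun a => a * a < n).card =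
      (n.divisors.filter fun a => n < a * a).card := by
    have hmem : ∀ a, a ∈ n.divisors → n / a ∈ n.divisors ∧ n / (n / a) = a ∧ n / a * a = n := by
      intro a ha
      rw [Nat.mem_divisors] at ha
      exact ⟨Nat.mem_divisors.2 ⟨Nat.div_dvd_of_dvd ha.1, hn.ne'⟩,
        Nat.div_div_self ha.1 hn.ne', Nat.div_mul_cancel ha.1⟩
    refine card_nbij' (fun a => n / a) (fun a => n / a) (fun a ha => ?_) (fun a ha => ?_)
      (fun a ha => (hmem a (mem_filter.1 ha).1).2.1) fun a ha => (hmem a (mem_filter.1 ha).1).2.1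
    · obtain ⟨h1, h2⟩ := mem_filter.1 ha
      obtain ⟨m1, -, m3⟩ := hmem a h1
      refine mem_filter.2 ⟨m1, ?_⟩
      have ha0 : 0 < a := Nat.pos_of_mem_divisors h1
      by_contra hc
      nlinarith [not_lt.1 hc]
    · obtain ⟨h1, h2⟩ := mem_filter.1 ha
      obtain ⟨m1, -, m3⟩ := hmem a h1
      refine mem_filter.2 ⟨m1, ?_⟩
      by_contra hc
      nlinarith [not_lt.1 hc]
  have heq : (n.divisors.filter fun a => a * a = n).card = sqInd n := by
    rw [sqInd]
    split_ifs with h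
    · rw [card_eq_one]
      refine ⟨Nat.sqrt n, ?_⟩
      ext a
      simp only [mem_filter, Nat.mem_divisors, mem_singleton]
      constructor
      · rintro ⟨-, ha⟩
        exact Nat.mul_self_inj.1 (ha.trans h.symm)
      · rintro rfl
        exact ⟨⟨Dvd.intro _ h, hn.ne'⟩, h⟩
    · rw [card_eq_zero, filter_eq_empty_iff]
      intro a _ ha
      exact h (by rw [← ha, Nat.sqrt_eq])
  have hsplit : n.divisors.card = (n.divisors.filter fun a => a * a < n).card +
      (n.divisors.filter fun a => n < a * a).card +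
      (n.divisors.filter fun a => a * a = n).card := by
    simp only [card_filter, ← sum_add_distrib]
    rw [card_eq_sum_ones]
    refine sum_congr rfl fun a _ => ?_
    split_ifs <;> omega
  rw [hsplit, ← hhigh, heq, lowDiv, hlow]
  ring

/-- The pairs counted by `lowDiv X n * lowDiv X (n + h)`. -/
def pairCount (N h a b : ℕ) : ℕ :=
  ((Icc 1 N).filter fun n => (a ∣ n ∧ a * a < n) ∧ (b ∣ n + h ∧ b * b < n + h)).card

theorem sum_lowDiv_mul (X N h : ℕ) :
    ∑ n ∈ Icc 1 N, lowDiv X n * lowDiv X (n + h) =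
      ∑ a ∈ Icc 1 X, ∑ b ∈ Icc 1 X, pairCount N h a b := by
  simp only [lowDiv, pairCount, card_filter, sum_mul_sum, ite_mul, one_mul, zero_mul, ← ite_and]
  rw [sum_comm]
  exact sum_congr rfl fun a _ => sum_comm

/-- Two congruences in an interval. -/
theorem abs_card_congr_sub_le {a b h : ℕ} (ha : 0 < a) (hb : 0 < b) {L N : ℕ} (hLN : L ≤ N) :
    |(((Ioc L N).filter fun n => a ∣ n ∧ b ∣ n + h).card : ℝ) -
      if Nat.gcd a b ∣ h then ((N : ℝ) - L) / Nat.lcm a b else 0| ≤ 1 := by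
  split_ifs with hg
  · obtain ⟨c, hc⟩ : ∃ c, c + h = b * h := ⟨b * h - h, Nat.sub_add_cancel
      (Nat.le_mul_of_pos_left h hb)⟩
    have hc0 : 0 ≡ c [MOD Nat.gcd a b] := by
      refine (Nat.modEq_zero_iff_dvd.2 ?_).symm
      exact (Nat.dvd_add_left hg).1 (hc ▸ (Nat.gcd_dvd_right a b).trans (dvd_mul_right b h))
    obtain ⟨k, hk⟩ := Nat.chineseRemainder' hc0
    have hiff : ∀ n, (a ∣ n ∧ b ∣ n + h) ↔ n ≡ k [MOD Nat.lcm a b] := fun n => by
      constructor
      · rintro ⟨h1, h2⟩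
        refine Nat.mod_lcm ((Nat.modEq_zero_iff_dvd.2 h1).trans hk.1.symm) ?_
        refine (Nat.ModEq.add_right_cancel' h ?_).trans hk.2.symm
        rw [hc]
        exact (Nat.modEq_zero_iff_dvd.2 h2).trans
          (Nat.modEq_zero_iff_dvd.2 (dvd_mul_right b h)).symm
      · intro hn
        have h1 : n ≡ 0 [MOD a] := (hn.of_dvd (Nat.dvd_lcm_left a b)).trans hk.1
        have h2 : n + h ≡ c + h [MOD b] :=
          ((hn.of_dvd (Nat.dvd_lcm_right a b)).trans hk.2).add_right h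
        rw [hc] at h2
        exact ⟨Nat.modEq_zero_iff_dvd.1 h1, Nat.modEq_zero_iff_dvd.1
          (h2.trans (Nat.modEq_zero_iff_dvd.2 (dvd_mul_right b h)))⟩
    rw [filter_congr fun n _ => hiff n]
    obtain ⟨r, hr⟩ : ∃ r, r = Nat.lcm a b := ⟨_, rfl⟩
    have hr0 : 0 < r := hr ▸ Nat.pos_of_ne_zero (Nat.lcm_ne_zero ha.ne' hb.ne')
    rw [← hr]
    obtain ⟨m, hm⟩ : ∃ m : ℤ, m = ⌊((N : ℚ) - k) / r⌋ - ⌊((L : ℚ) - k) / r⌋ := ⟨_, rfl⟩
    have hcard : (((Ioc L N).filter fun n => n ≡ k [MOD r]).card : ℤ) = m := by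
      rw [Nat.Ioc_filter_modEq_card _ _ hr0 k, ← hm, max_eq_left]
      rw [hm, sub_nonneg]
      exact Int.floor_le_floor (div_le_div_of_nonneg_right
        (sub_le_sub_right (Nat.cast_le.2 hLN) _) (Nat.cast_nonneg r))
    have hq : |(m : ℚ) - ((N : ℚ) - L) / r| ≤ 1 := by
      have e : ((N : ℚ) - L) / r = ((N : ℚ) - k) / r - ((L : ℚ) - k) / r := by ring
      rw [hm, Int.cast_sub, e, abs_le]
      constructor <;> linarith [Int.floor_le (((N : ℚ) - k) / r), Int.lt_floor_add_one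
        (((N : ℚ) - k) / r), Int.floor_le (((L : ℚ) - k) / r),
        Int.lt_floor_add_one (((L : ℚ) - k) / r)]
    have hR := (Rat.cast_le (K := ℝ)).2 hq
    push_cast at hR
    have hcardR : (((Ioc L N).filter fun n => n ≡ k [MOD r]).card : ℝ) = (m : ℝ) := by
      exact_mod_cast hcard
    rw [hcardR]
    exact hR
  · rw [filter_false_of_mem, card_empty]
    · simp
    · rintro n - ⟨h1, h2⟩
      exact hg ((Nat.dvd_add_right ((Nat.gcd_dvd_left a b).trans h1)).1
        ((Nat.gcd_dvd_right a b).trans h2))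

/-- The weight `[gcd (a, b) ∣ h] gcd (a, b) / (a b)`. -/
def pairWeight (h a b : ℕ) : ℝ :=
  if Nat.gcd a b ∣ h then (Nat.gcd a b : ℝ) / ((a : ℝ) * b) else 0

theorem abs_pairCount_sub_le {N h a b : ℕ} (hh : 0 < h) (ha : 0 < a) (hb : 0 < b) :
    |(pairCount N h a b : ℝ) - N * pairWeight h a b| ≤ 1 + h * ((a : ℝ) / b + (b : ℝ) / a) := by
  obtain ⟨L, hL⟩ : ∃ L, L = max (a * a) (b * b - h) := ⟨_, rfl⟩
  have ha' : (0 : ℝ) < a := Nat.cast_pos.2 ha
  have hb' : (0 : ℝ) < b := Nat.cast_pos.2 hb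
  have hset : pairCount N h a b = ((Ioc L N).filter fun n => a ∣ n ∧ b ∣ n + h).card := by
    rw [pairCount]
    congr 1
    ext n
    simp only [mem_filter, mem_Icc, mem_Ioc, hL, max_lt_iff]
    constructor
    · rintro ⟨⟨h1, h2⟩, ⟨h3, h4⟩, h5, h6⟩
      exact ⟨⟨⟨h4, by omega⟩, h2⟩, h3, h5⟩
    · rintro ⟨⟨⟨h4, h6⟩, h2⟩, h3, h5⟩
      exact ⟨⟨by omega, h2⟩, ⟨h3, h4⟩, h5, by omega⟩
  have hlcm : (Nat.gcd a b : ℝ) * Nat.lcm a b = (a : ℝ) * b := by
    exact_mod_cast Nat.gcd_mul_lcm a b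
  have hl0 : (0 : ℝ) < Nat.lcm a b :=
    Nat.cast_pos.2 (Nat.pos_of_ne_zero (Nat.lcm_ne_zero ha.ne' hb.ne'))
  have hw : pairWeight h a b = if Nat.gcd a b ∣ h then 1 / (Nat.lcm a b : ℝ) else 0 := by
    rw [pairWeight]
    split_ifs
    · rw [← hlcm]
      have : (Nat.gcd a b : ℝ) ≠ 0 := Nat.cast_ne_zero.2 (Nat.gcd_pos_of_pos_left b ha).ne'
      field_simp
    · rfl
  have hbound : Nat.gcd a b ∣ h → (L : ℝ) / Nat.lcm a b ≤ h * ((a : ℝ) / b + (b : ℝ) / a) := by
    intro hg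
    have hgh : (Nat.gcd a b : ℝ) ≤ h := Nat.cast_le.2 (Nat.le_of_dvd hh hg)
    have hL2 : (L : ℝ) ≤ (a : ℝ) * a + b * b := by
      have : L ≤ a * a + b * b := hL ▸ max_le (Nat.le_add_right _ _)
        ((Nat.sub_le _ _).trans (Nat.le_add_left _ _))
      exact_mod_cast this
    have e : (a : ℝ) / b + (b : ℝ) / a = ((a : ℝ) * a + b * b) / (a * b) := by field_simp
    rw [e, mul_div, div_le_div_iff₀ hl0 (by positivity), ← hlcm]
    nlinarith [mul_le_mul_of_nonneg_left hL2 (Nat.cast_nonneg (Nat.gcd a b)),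
      mul_le_mul_of_nonneg_right hgh (show (0 : ℝ) ≤ (a : ℝ) * a + b * b by positivity)]
  have hnn : 0 ≤ (h : ℝ) * ((a : ℝ) / b + (b : ℝ) / a) := by positivity
  rw [hset, hw]
  rcases le_or_gt L N with hLN | hLN
  · have h1 := abs_card_congr_sub_le (h := h) ha hb hLN
    by_cases hg : Nat.gcd a b ∣ h
    · rw [if_pos hg] at h1 ⊢
      rw [abs_le] at h1 ⊢
      have := hbound hg
      have hL0 : 0 ≤ (L : ℝ) / Nat.lcm a b := by positivity
      rw [sub_div] at h1
      rw [mul_one_div]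
      constructor <;> linarith
    · rw [if_neg hg] at h1 ⊢
      rw [mul_zero]
      linarith
  · rw [Ioc_eq_empty_of_le hLN.le, filter_empty, card_empty, Nat.cast_zero, zero_sub, abs_neg]
    by_cases hg : Nat.gcd a b ∣ h
    · rw [if_pos hg, mul_one_div, abs_of_nonneg (by positivity)]
      have := div_le_div_of_nonneg_right (Nat.cast_le.2 hLN.le : (N : ℝ) ≤ L) hl0.le
      linarith [hbound hg]
    · rw [if_neg hg]
      simp
      positivity

end FA.AdditiveDivisor
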