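import Fermat.Agent.AdditiveDivisor.Count
import Fermat.Agent.MinkowskiHlawka.Count

/-!
# Ingham's additive divisor problem

`∑_{a, b ≤ X} [(a, b) ∣ h] (a, b) / (a b) = (6 / π²) σ₋₁ (h) log² X + O (log X)`, by expanding
`[g ∣ h] g = ∑_{e ∣ g} f e`.
-/

set_option autoImplicit false

noncomputable section

namespace FA.AdditiveDivisor

open Finset Filter Topology ArithmeticFunction
open scoped ArithmeticFunction.Moebius ArithmeticFunction.zeta

/-- `n ↦ [n ∣ h] n`. -/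
def divId (h : ℕ) : ArithmeticFunction ℝ := ⟨fun n => if n ∈ h.divisors then n else 0, by simp⟩

/-- The Möbius transform of `divId`. -/
def divCoeff (h : ℕ) : ArithmeticFunction ℝ := divId h * (μ : ArithmeticFunction ℝ)

theorem sum_divCoeff (h g : ℕ) :
    ∑ e ∈ g.divisors, divCoeff h e = if g ∈ h.divisors then (g : ℝ) else 0 := by
  rw [← coe_mul_zeta_apply, divCoeff, mul_assoc, coe_moebius_mul_coe_zeta, mul_one]
  rfl

theorem divCoeff_apply (h : ℕ) {e : ℕ} (he : 0 < e) :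
    divCoeff h e = ∑ d ∈ h.divisors, if d ∣ e then (d : ℝ) * μ (e / d) else 0 := by
  rw [divCoeff, mul_apply, Nat.sum_divisorsAntidiagonal
    (fun i j => divId h i * (μ : ArithmeticFunction ℝ) j), ← sum_filter]
  simp only [divId, coe_mk, intCoe_apply, ite_mul, zero_mul]
  rw [← sum_filter]
  refine sum_congr ?_ fun _ _ => rfl
  ext d
  simp only [mem_filter, Nat.mem_divisors]
  exact ⟨fun ⟨a, b⟩ => ⟨b, a.1⟩, fun ⟨a, b⟩ => ⟨⟨b, he.ne'⟩, a⟩⟩

theorem abs_divCoeff_le (h e : ℕ) : |divCoeff h e| ≤ ∑ d ∈ h.divisors, (d : ℝ) := by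
  rcases Nat.eq_zero_or_pos e with rfl | he
  · simp [sum_nonneg]
  rw [divCoeff_apply h he]
  refine (abs_sum_le_sum_abs _ _).trans (sum_le_sum fun d _ => ?_)
  split_ifs
  · rw [abs_mul, Nat.abs_cast]
    exact mul_le_of_le_one_right (Nat.cast_nonneg d) (by exact_mod_cast abs_moebius_le_one)
  · simp

/-- `σ₋₁ h`. -/
def sigmaNeg (h : ℕ) : ℝ := ∑ d ∈ h.divisors, (d : ℝ)⁻¹

theorem hasSum_divCoeff (h : ℕ) :
    HasSum (fun e : ℕ => divCoeff h e / (e : ℝ) ^ 2) (6 / Real.pi ^ 2 * sigmaNeg h) := by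
  have hmu : HasSum (fun k : ℕ => (μ k : ℝ) / (k : ℝ) ^ 2) (6 / Real.pi ^ 2) := by
    have hs : Summable fun k : ℕ => (μ k : ℝ) / (k : ℝ) ^ 2 := by
      refine Summable.of_norm_bounded (Real.summable_one_div_nat_pow.2 one_lt_two) fun k => ?_
      rw [Real.norm_eq_abs, abs_div, abs_of_nonneg (sq_nonneg (k : ℝ))]
      exact div_le_div_of_nonneg_right (by exact_mod_cast abs_moebius_le_one) (sq_nonneg _)
    have hl := hs.hasSum
    rwa [MinkowskiHlawka.tsum_moebius_div_pow one_lt_two,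
      show MinkowskiHlawka.zetaNat 2 = Real.pi ^ 2 / 6 from hasSum_zeta_two.tsum_eq, inv_div] at hl
  have hd : ∀ d ∈ h.divisors, HasSum
      (fun e : ℕ => if d ∣ e then (d : ℝ) * μ (e / d) / (e : ℝ) ^ 2 else 0)
      ((d : ℝ)⁻¹ * (6 / Real.pi ^ 2)) := by
    intro d hd
    have hd0 : 0 < d := Nat.pos_of_mem_divisors hd
    refine ((mul_right_injective₀ hd0.ne').hasSum_iff ?_).1 ((hmu.mul_left (d : ℝ)⁻¹).congr_fun
      fun k => ?_)
    · intro e he
      rw [if_neg]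
      rintro ⟨k, rfl⟩
      exact he ⟨k, rfl⟩
    · have hdR : (d : ℝ) ≠ 0 := Nat.cast_ne_zero.2 hd0.ne'
      simp only [Function.comp_apply, dvd_mul_right, if_true, Nat.mul_div_cancel_left k hd0,
        Nat.cast_mul]
      field_simp
  rw [sigmaNeg, mul_sum]
  simp only [mul_comm (6 / Real.pi ^ 2)]
  refine (hasSum_sum hd).congr_fun fun e => ?_
  rcases Nat.eq_zero_or_pos e with rfl | he
  · simp
  · rw [divCoeff_apply h he, sum_div]
    exact sum_congr rfl fun d _ => by split_ifs <;> simp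

theorem sum_multiples_inv {X e : ℕ} (he : 0 < e) :
    ∑ a ∈ Icc 1 X, (if e ∣ a then (a : ℝ)⁻¹ else 0) = (harmonic (X / e) : ℝ) / e := by
  rw [← sum_filter, harmonic_eq_sum_Icc]
  push_cast
  rw [sum_div]
  refine sum_nbij' (fun a => a / e) (fun k => e * k) (fun a ha => ?_) (fun k hk => ?_)
    (fun a ha => ?_) (fun k hk => ?_) fun a ha => ?_
  · obtain ⟨h1, k, rfl⟩ := mem_filter.1 ha
    rw [mem_Icc] at h1 ⊢
    rw [Nat.mul_div_cancel_left k he, Nat.le_div_iff_mul_le he, mul_comm k]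
    exact ⟨Nat.pos_of_mul_pos_left h1.1, h1.2⟩
  · have hk' : 1 ≤ k ∧ k ≤ X / e := mem_Icc.1 hk
    rw [Nat.le_div_iff_mul_le he, mul_comm k] at hk'
    exact mem_filter.2 ⟨mem_Icc.2 ⟨Nat.mul_pos he hk'.1, hk'.2⟩, dvd_mul_right _ _⟩
  · exact Nat.mul_div_cancel' (mem_filter.1 ha).2
  · exact Nat.mul_div_cancel_left k he
  · obtain ⟨-, k, rfl⟩ := mem_filter.1 ha
    rw [Nat.mul_div_cancel_left k he, Nat.cast_mul, mul_inv, div_eq_mul_inv]
    ring

theorem sum_pairWeight {h : ℕ} (hh : 0 < h) (X : ℕ) :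
    ∑ a ∈ Icc 1 X, ∑ b ∈ Icc 1 X, pairWeight h a b =
      ∑ e ∈ Icc 1 X, divCoeff h e / (e : ℝ) ^ 2 * (harmonic (X / e) : ℝ) ^ 2 := by
  have hpt : ∀ a ∈ Icc 1 X, ∀ b ∈ Icc 1 X, pairWeight h a b = ∑ e ∈ Icc 1 X,
      divCoeff h e * ((if e ∣ a then (a : ℝ)⁻¹ else 0) * (if e ∣ b then (b : ℝ)⁻¹ else 0)) := by
    intro a ha b hb
    have ha0 : 0 < a := (mem_Icc.1 ha).1
    have hg : 0 < Nat.gcd a b := Nat.gcd_pos_of_pos_left b ha0
    have hs := sum_divCoeff h (Nat.gcd a b)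
    have hset : (Nat.gcd a b).divisors = (Icc 1 X).filter fun e => e ∣ a ∧ e ∣ b := by
      ext e
      simp only [Nat.mem_divisors, mem_filter, mem_Icc, Nat.dvd_gcd_iff]
      refine ⟨fun h => ⟨⟨Nat.pos_of_dvd_of_pos h.1.1 ha0, ?_⟩, h.1⟩, fun h => ⟨h.2, hg.ne'⟩⟩
      exact (Nat.le_of_dvd ha0 h.1.1).trans (mem_Icc.1 ha).2
    rw [hset, sum_filter] at hs
    have e1 : pairWeight h a b =
        (if Nat.gcd a b ∈ h.divisors then (Nat.gcd a b : ℝ) else 0) * ((a : ℝ)⁻¹ * (b : ℝ)⁻¹) := by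
      rw [pairWeight]
      simp only [Nat.mem_divisors, hh.ne', ne_eq, not_false_eq_true, and_true]
      split_ifs
      · rw [div_eq_mul_inv, mul_inv]
      · simp
    rw [e1, ← hs, sum_mul]
    refine sum_congr rfl fun e _ => ?_
    by_cases h1 : e ∣ a <;> by_cases h2 : e ∣ b <;> simp [h1, h2]
  rw [sum_congr rfl fun a ha => sum_congr rfl fun b hb => hpt a ha b hb,
    sum_congr rfl fun a _ => sum_comm, sum_comm]
  refine sum_congr rfl fun e he => ?_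
  simp only [← mul_sum]
  rw [← sum_mul, sum_multiples_inv (mem_Icc.1 he).1]
  ring

theorem summable_log_weight : Summable fun e : ℕ => (1 + Real.log e) / (e : ℝ) ^ 2 := by
  refine Summable.of_norm_bounded ((Real.summable_one_div_nat_rpow.2
    (by norm_num : (1 : ℝ) < 3 / 2)).mul_left 3) fun e => ?_
  rcases Nat.eq_zero_or_pos e with rfl | he
  · simp
  have he1 : (1 : ℝ) ≤ e := Nat.one_le_cast.2 he
  rw [Real.norm_of_nonneg (div_nonneg (by linarith [Real.log_nonneg he1]) (sq_nonneg _))]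
  have hl := Real.log_le_rpow_div (Nat.cast_nonneg e) (show (0 : ℝ) < 1 / 2 by norm_num)
  have hp : 1 ≤ (e : ℝ) ^ (1 / 2 : ℝ) := Real.one_le_rpow he1 (by norm_num)
  have e2 : (e : ℝ) ^ 2 = (e : ℝ) ^ (3 / 2 : ℝ) * (e : ℝ) ^ (1 / 2 : ℝ) := by
    rw [← Real.rpow_add (by positivity)]
    norm_num
  rw [e2, mul_one_div, div_le_div_iff₀ (by positivity) (by positivity)]
  have : 0 < (e : ℝ) ^ (3 / 2 : ℝ) := by positivity
  nlinarith

theorem abs_tail_le (h : ℕ) {X : ℕ} (hX : 0 < X) :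
    |6 / Real.pi ^ 2 * sigmaNeg h - ∑ e ∈ Icc 1 X, divCoeff h e / (e : ℝ) ^ 2| ≤
      (∑ d ∈ h.divisors, (d : ℝ)) / X := by
  have hlim := ((hasSum_divCoeff h).tendsto_sum_nat).comp (tendsto_add_atTop_nat (X + 1))
  refine le_of_tendsto' (hlim.sub_const _).abs fun n => ?_
  rw [Function.comp_apply, range_eq_Ico, sum_eq_sum_Ico_succ_bot (by omega),
    show Ico (0 + 1) (n + (X + 1)) = Icc 1 (X + n) by ext; simp; omega,
    show Icc 1 (X + n) = Icc 1 X ∪ Ioc X (X + n) by ext a; simp; omega,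
    sum_union (disjoint_left.2 fun a h1 h2 => by simp at h1 h2; omega)]
  simp only [Nat.cast_zero, ne_eq, OfNat.ofNat_ne_zero, not_false_eq_true, zero_pow, div_zero,
    zero_add, add_sub_cancel_left]
  refine (abs_sum_le_sum_abs _ _).trans ((sum_le_sum (g := fun e : ℕ =>
    (∑ d ∈ h.divisors, (d : ℝ)) * ((e : ℝ) ^ 2)⁻¹) fun e _ => ?_).trans ?_)
  · rw [abs_div, abs_of_nonneg (sq_nonneg (e : ℝ)), div_eq_mul_inv]
    exact mul_le_mul_of_nonneg_right (abs_divCoeff_le h e) (by positivity)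
  · rw [← mul_sum, div_eq_mul_inv (∑ d ∈ h.divisors, (d : ℝ))]
    refine mul_le_mul_of_nonneg_left ((sum_Ioc_inv_sq_le_sub hX.ne' (Nat.le_add_right X n)).trans
      (sub_le_self _ (by positivity))) (sum_nonneg fun d _ => Nat.cast_nonneg d)

theorem exists_weight_asymptotic {h : ℕ} (hh : 0 < h) : ∃ C : ℝ, 0 ≤ C ∧ ∀ X : ℕ, 1 ≤ X →
    |(∑ a ∈ Icc 1 X, ∑ b ∈ Icc 1 X, pairWeight h a b) -
      6 / Real.pi ^ 2 * sigmaNeg h * Real.log X ^ 2| ≤ C * (1 + Real.log X) := by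
  obtain ⟨S, hS⟩ : ∃ S, S = ∑ d ∈ h.divisors, (d : ℝ) := ⟨_, rfl⟩
  obtain ⟨W, hW⟩ : ∃ W, W = ∑' e : ℕ, (1 + Real.log e) / (e : ℝ) ^ 2 := ⟨_, rfl⟩
  have hS0 : 0 ≤ S := hS ▸ sum_nonneg fun d _ => Nat.cast_nonneg d
  have hW0 : 0 ≤ W := hW ▸ tsum_nonneg fun e =>
    div_nonneg (by linarith [Real.log_natCast_nonneg e]) (sq_nonneg _)
  refine ⟨2 * S * W + S, by positivity, fun X hX => ?_⟩
  obtain ⟨L, hL⟩ : ∃ L, L = Real.log X := ⟨_, rfl⟩
  have hXR : (1 : ℝ) ≤ X := Nat.one_le_cast.2 hX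
  have hL0 : 0 ≤ L := hL ▸ Real.log_natCast_nonneg X
  rw [sum_pairWeight hh, ← hL]
  have hpt : ∀ e ∈ Icc 1 X, |divCoeff h e / (e : ℝ) ^ 2 * (harmonic (X / e) : ℝ) ^ 2 -
      divCoeff h e / (e : ℝ) ^ 2 * L ^ 2| ≤ S * (1 + 2 * L) * ((1 + Real.log e) / (e : ℝ) ^ 2) := by
    intro e he
    obtain ⟨he1, heX⟩ := mem_Icc.1 he
    have he0 : (0 : ℝ) < e := Nat.cast_pos.2 he1
    obtain ⟨m, hm⟩ : ∃ m, m = X / e := ⟨_, rfl⟩
    have hm1 : 1 ≤ m := hm ▸ (Nat.le_div_iff_mul_le he1).2 (by omega)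
    obtain ⟨H, hH⟩ : ∃ H, H = (harmonic m : ℝ) := ⟨_, rfl⟩
    have h1 : H ≤ 1 + L := by
      refine hH ▸ (harmonic_le_one_add_log m).trans (add_le_add le_rfl ?_)
      rw [hL]
      exact Real.log_le_log (Nat.cast_pos.2 hm1) (Nat.cast_le.2 (hm ▸ Nat.div_le_self X e))
    have h2 : L - Real.log e ≤ H := by
      refine le_trans ?_ (hH ▸ log_add_one_le_harmonic m)
      rw [hL, ← Real.log_div (by linarith) he0.ne']
      refine Real.log_le_log (by positivity) ((div_le_iff₀ he0).2 ?_)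
      have hlt : X < (m + 1) * e := hm ▸ (Nat.div_lt_iff_lt_mul he1).1 (Nat.lt_succ_self _)
      exact_mod_cast hlt.le
    have hH0 : 0 ≤ H := hH ▸ (Rat.cast_nonneg.2 (by
      rw [harmonic]; exact sum_nonneg fun i _ => by positivity))
    have hle : 0 ≤ Real.log e := Real.log_natCast_nonneg e
    rw [← hm, ← hH, ← mul_sub, abs_mul, abs_div, abs_of_nonneg (sq_nonneg (e : ℝ))]
    have h3 : |H ^ 2 - L ^ 2| ≤ (1 + Real.log e) * (1 + 2 * L) := by
      rw [sq_sub_sq, abs_mul, mul_comm]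
      refine mul_le_mul ?_ ?_ (abs_nonneg _) (by linarith)
      · rw [abs_le]; constructor <;> linarith
      · rw [abs_le]; constructor <;> linarith
    refine (mul_le_mul (div_le_div_of_nonneg_right (hS ▸ abs_divCoeff_le h e) (sq_nonneg _)) h3
      (abs_nonneg _) (by positivity)).trans (le_of_eq ?_)
    ring
  have hdiff : |(∑ e ∈ Icc 1 X, divCoeff h e / (e : ℝ) ^ 2 * (harmonic (X / e) : ℝ) ^ 2) -
      (∑ e ∈ Icc 1 X, divCoeff h e / (e : ℝ) ^ 2) * L ^ 2| ≤ S * (1 + 2 * L) * W := by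
    rw [sum_mul, ← sum_sub_distrib]
    refine (abs_sum_le_sum_abs _ _).trans ((sum_le_sum hpt).trans ?_)
    rw [← mul_sum, hW]
    exact mul_le_mul_of_nonneg_left (summable_log_weight.sum_le_tsum _ fun e _ =>
      div_nonneg (by linarith [Real.log_natCast_nonneg e]) (sq_nonneg _)) (by positivity)
  have htail : |(6 / Real.pi ^ 2 * sigmaNeg h - ∑ e ∈ Icc 1 X, divCoeff h e / (e : ℝ) ^ 2) * L ^ 2|
      ≤ S * L := by
    rw [abs_mul, abs_of_nonneg (sq_nonneg L)]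
    refine (mul_le_mul_of_nonneg_right (abs_tail_le h hX) (sq_nonneg L)).trans ?_
    rw [← hS, div_mul_eq_mul_div, div_le_iff₀ (by linarith)]
    have : L ≤ X := hL ▸ Real.log_le_self (Nat.cast_nonneg X)
    nlinarith [mul_nonneg hS0 hL0]
  have hX2 : 0 ≤ S * W * L := by positivity
  have hX3 : 0 ≤ S * W := by positivity
  rw [abs_le] at hdiff htail ⊢
  constructor <;> nlinarith [hdiff.1, hdiff.2, htail.1, htail.2]

/-- **Ingham's theorem.** -/
theorem exists_additive_divisor {h : ℕ} (hh : 0 < h) : ∃ C : ℝ, ∀ N : ℕ, 1 ≤ N →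
    |(∑ n ∈ Icc 1 N, (n.divisors.card : ℝ) * (n + h).divisors.card) -
      6 / Real.pi ^ 2 * sigmaNeg h * N * Real.log N ^ 2| ≤ C * N * (1 + Real.log N) := by
  obtain ⟨C₀, hC₀, hweight⟩ := exists_weight_asymptotic hh
  obtain ⟨c, hc⟩ : ∃ c, c = 6 / Real.pi ^ 2 * sigmaNeg h := ⟨_, rfl⟩
  obtain ⟨k, hk⟩ : ∃ k : ℝ, k = (h : ℝ) + 2 := ⟨_, rfl⟩
  refine ⟨5 * k + 4 * k * k * (k + 1) * 3 + 4 * C₀ * (1 + k) + |c| * k * (2 + k), fun N hN => ?_⟩
  rw [← hc]
  obtain ⟨X, hX⟩ : ∃ X, X = Nat.sqrt (N + h) := ⟨_, rfl⟩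
  have hX1 : 1 ≤ X := hX ▸ Nat.le_sqrt.2 (by omega)
  have hh1 : (1 : ℝ) ≤ h := Nat.one_le_cast.2 hh
  have hN1 : (1 : ℝ) ≤ N := Nat.one_le_cast.2 hN
  have hXsq : (X : ℝ) * X ≤ k * N := by
    have : (X : ℝ) * X ≤ (N : ℝ) + h := by exact_mod_cast hX ▸ Nat.sqrt_le (N + h)
    nlinarith
  obtain ⟨l, hl⟩ : ∃ l, l = Real.log N := ⟨_, rfl⟩
  have hl0 : 0 ≤ l := hl ▸ Real.log_natCast_nonneg N
  obtain ⟨L, hL⟩ : ∃ L, L = Real.log X := ⟨_, rfl⟩
  have hL0 : 0 ≤ L := hL ▸ Real.log_natCast_nonneg X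
  have hXR : (0 : ℝ) < X := Nat.cast_pos.2 hX1
  have hLl : |2 * L - l| ≤ k := by
    have e : 2 * L = Real.log ((X : ℝ) * X) := by rw [hL, Real.log_mul hXR.ne' hXR.ne']; ring
    rw [e, hl, abs_le]
    constructor
    · have hlt : (N : ℝ) ≤ 4 * ((X : ℝ) * X) := by
        have h1 := hX ▸ Nat.lt_succ_sqrt (N + h)
        have : N ≤ 4 * (X * X) := by nlinarith
        exact_mod_cast this
      have h4 : Real.log 4 ≤ 3 := by
        linarith [Real.log_le_sub_one_of_pos (show (0 : ℝ) < 4 by norm_num)]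
      have := Real.log_le_log (by linarith) hlt
      rw [Real.log_mul (show (4 : ℝ) ≠ 0 by norm_num) (show (X : ℝ) * X ≠ 0 by positivity)] at this
      linarith
    · have hb : (X : ℝ) * X ≤ k * N := hXsq
      have := Real.log_le_log (by positivity) hb
      rw [Real.log_mul (show k ≠ 0 by linarith) (show (N : ℝ) ≠ 0 by linarith)] at this
      linarith [Real.log_le_sub_one_of_pos (show 0 < k by linarith)]
  have hLle : 1 + L ≤ (1 + k) * (1 + l) := by nlinarith [(abs_le.1 hLl).2]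
  have hlow : ∀ m, lowDiv X m ≤ X := fun m =>
    (card_filter_le _ _).trans (by rw [Nat.card_Icc]; omega)
  have hsq1 : ∀ m, sqInd m ≤ 1 := fun m => by unfold sqInd; split <;> omega
  have hsqcount : ∀ t, t ≤ h → ∑ n ∈ Icc 1 N, sqInd (n + t) ≤ X := by
    intro t ht
    simp only [sqInd]
    rw [← card_filter]
    calc _ ≤ (Icc 1 X).card := card_le_card_of_injOn (fun n => Nat.sqrt (n + t)) (fun n hn => by
          obtain ⟨h1, h2⟩ := mem_filter.1 hn
          rw [mem_Icc] at h1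
          refine mem_Icc.2 ⟨Nat.le_sqrt.2 (by omega), hX ▸ Nat.sqrt_le_sqrt (by omega)⟩)
          fun m hm n hn e => by
            have h1 := (mem_filter.1 hm).2
            have h2 := (mem_filter.1 hn).2
            simp only at e
            rw [e] at h1
            omega
      _ = X := by simp
  have hdec : ∀ n ∈ Icc 1 N, n.divisors.card * (n + h).divisors.card =
      4 * (lowDiv X n * lowDiv X (n + h)) + (2 * lowDiv X n * sqInd (n + h) +
        2 * lowDiv X (n + h) * sqInd n + sqInd n * sqInd (n + h)) := fun n hn => by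
    rw [mem_Icc] at hn
    rw [card_divisors_eq (X := X) (by omega) (hX ▸ Nat.sqrt_le_sqrt (by omega)),
      card_divisors_eq (X := X) (by omega) (hX ▸ Nat.sqrt_le_sqrt (by omega))]
    ring
  obtain ⟨R, hR⟩ : ∃ R, R = ∑ n ∈ Icc 1 N, (2 * lowDiv X n * sqInd (n + h) +
      2 * lowDiv X (n + h) * sqInd n + sqInd n * sqInd (n + h)) := ⟨_, rfl⟩
  have hRle : R ≤ 5 * (X * X) := by
    rw [hR]
    refine (sum_le_sum (g := fun n => 2 * X * sqInd (n + h) + 2 * X * sqInd (n + 0) + sqInd (n + 0))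
      fun n _ => ?_).trans ?_
    · refine add_le_add (add_le_add ?_ ?_) (mul_le_of_le_one_right (Nat.zero_le _) (hsq1 _))
      · exact Nat.mul_le_mul_right _ (Nat.mul_le_mul_left _ (hlow _))
      · exact Nat.mul_le_mul_right _ (Nat.mul_le_mul_left _ (hlow _))
    · rw [sum_add_distrib, sum_add_distrib, ← mul_sum, ← mul_sum]
      nlinarith [hsqcount h le_rfl, hsqcount 0 (Nat.zero_le _), Nat.le_mul_self X]
  have hmain : (∑ n ∈ Icc 1 N, n.divisors.card * (n + h).divisors.card) =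
      4 * (∑ a ∈ Icc 1 X, ∑ b ∈ Icc 1 X, pairCount N h a b) + R := by
    rw [sum_congr rfl hdec, sum_add_distrib, ← mul_sum, sum_lowDiv_mul, hR]
  have hpair : |((∑ a ∈ Icc 1 X, ∑ b ∈ Icc 1 X, pairCount N h a b : ℕ) : ℝ) -
      N * ∑ a ∈ Icc 1 X, ∑ b ∈ Icc 1 X, pairWeight h a b| ≤
      X * X * (1 + 2 * h * (1 + L)) := by
    push_cast
    rw [mul_sum, ← sum_sub_distrib]
    simp only [mul_sum, ← sum_sub_distrib]
    refine (abs_sum_le_sum_abs _ _).trans ?_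
    refine (sum_le_sum (g := fun a : ℕ => ∑ b ∈ Icc 1 X,
      (1 + (h : ℝ) * ((X : ℝ) * (b : ℝ)⁻¹ + (X : ℝ) * (a : ℝ)⁻¹))) fun a ha =>
      (abs_sum_le_sum_abs _ _).trans (sum_le_sum fun b hb => ?_)).trans ?_
    · have ha' := mem_Icc.1 ha
      have hb' := mem_Icc.1 hb
      refine (abs_pairCount_sub_le hh ha'.1 hb'.1).trans (add_le_add le_rfl
        (mul_le_mul_of_nonneg_left (add_le_add ?_ ?_) (Nat.cast_nonneg h)))
      · rw [div_eq_mul_inv]
        exact mul_le_mul_of_nonneg_right (Nat.cast_le.2 ha'.2) (by positivity)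
      · rw [div_eq_mul_inv]
        exact mul_le_mul_of_nonneg_right (Nat.cast_le.2 hb'.2) (by positivity)
    · have hH : ∑ b ∈ Icc 1 X, (b : ℝ)⁻¹ ≤ 1 + L := by
        have := harmonic_le_one_add_log X
        rw [harmonic_eq_sum_Icc] at this
        push_cast at this
        rw [hL]
        exact this
      simp only [sum_add_distrib, ← mul_sum, sum_const, Nat.card_Icc, Nat.add_sub_cancel,
        nsmul_eq_mul, mul_one]
      nlinarith [mul_le_mul_of_nonneg_left hH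
        (show (0 : ℝ) ≤ (h : ℝ) * ((X : ℝ) * X) by positivity)]
  have hw := hweight X hX1
  rw [← hc, ← hL] at hw
  have hcast : (∑ n ∈ Icc 1 N, (n.divisors.card : ℝ) * (n + h).divisors.card) =
      4 * ((∑ a ∈ Icc 1 X, ∑ b ∈ Icc 1 X, pairCount N h a b : ℕ) : ℝ) + R := by
    exact_mod_cast hmain
  obtain ⟨P, hP⟩ : ∃ P : ℝ, P = ((∑ a ∈ Icc 1 X, ∑ b ∈ Icc 1 X, pairCount N h a b : ℕ) : ℝ) :=
    ⟨_, rfl⟩
  obtain ⟨M, hM⟩ : ∃ M, M = ∑ a ∈ Icc 1 X, ∑ b ∈ Icc 1 X, pairWeight h a b := ⟨_, rfl⟩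
  rw [← hP, ← hM] at hpair
  rw [← hM] at hw
  rw [hcast, ← hP]
  have hR' : (R : ℝ) ≤ 5 * k * N := by
    have : (R : ℝ) ≤ 5 * ((X : ℝ) * X) := by exact_mod_cast hRle
    linarith
  have hR0 : (0 : ℝ) ≤ R := Nat.cast_nonneg R
  have hk0 : 0 ≤ k := by linarith
  -- the three errors
  have e1 : |4 * P - 4 * (N * M)| ≤ 4 * (k * k * (k + 1) * 3) * (N * (1 + l)) := by
    rw [← mul_sub, abs_mul, abs_of_pos (show (0 : ℝ) < 4 by norm_num), mul_assoc 4]
    refine mul_le_mul_of_nonneg_left (hpair.trans ?_) (by norm_num)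
    have h1 : 1 + 2 * (h : ℝ) * (1 + L) ≤ 3 * k * ((1 + k) * (1 + l)) := by
      nlinarith [mul_le_mul_of_nonneg_left hLle (show (0 : ℝ) ≤ h by linarith)]
    refine (mul_le_mul hXsq h1 (by positivity) (by positivity)).trans (le_of_eq ?_)
    ring
  have e2 : |4 * (N * M) - c * N * (2 * L) ^ 2| ≤ 4 * C₀ * (1 + k) * (N * (1 + l)) := by
    rw [show 4 * ((N : ℝ) * M) - c * N * (2 * L) ^ 2 = 4 * N * (M - c * L ^ 2) by ring, abs_mul,
      abs_of_nonneg (show (0 : ℝ) ≤ 4 * N by positivity)]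
    refine (mul_le_mul_of_nonneg_left (hw.trans (mul_le_mul_of_nonneg_left hLle hC₀))
      (by positivity)).trans (le_of_eq ?_)
    ring
  have e3 : |c * N * (2 * L) ^ 2 - c * N * l ^ 2| ≤ |c| * k * (2 + k) * (N * (1 + l)) := by
    rw [← mul_sub, sq_sub_sq, abs_mul, abs_mul, abs_mul, Nat.abs_cast]
    have h1 : |2 * L + l| ≤ (2 + k) * (1 + l) := by
      rw [abs_of_nonneg (by linarith)]
      nlinarith [(abs_le.1 hLl).2]
    refine (mul_le_mul_of_nonneg_left (mul_le_mul h1 hLl (abs_nonneg _) (by positivity))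
      (by positivity)).trans (le_of_eq ?_)
    ring
  rw [abs_le] at e1 e2 e3 ⊢
  rw [← hl]
  constructor <;> nlinarith [e1.1, e1.2, e2.1, e2.2, e3.1, e3.2]

end FA.AdditiveDivisor
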